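import Fermat.Agent.S55.PT.Coh

/-!
# S55 / layer KC (helper53), leaf K3 (`KummerH3Spec`): core, independent of the location of the
interface (imports only the landed `PT` layer)

`H³_lc(G, M) = 0` if `B` is smooth and `p`-divisible, `M ≅ B[p]` (via `ι`), `H³_lc(G, B) = 0` and
`H²_lc(G, B)` is `p`-divisible.

`kummerH3_core_h510` is the statement of `KummerH3Spec` with `H3Vanish`, `H2Divisible`, `IsLC₃`,
`IsCocycle₃`, `IsPDivisible` unfolded and the three fields of `IsKummerEmb` as hypotheses.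
Adapter (one line, wherever the Spec lives):

  `theorem kummerH3 : KummerH3Spec := fun G _ L p _ M B ι hNC hFI hsm hdiv hK hH3 hH2 =>`
  `  Fermat.Agent.S55.KL.H510.kummerH3_core_h510 G L p M B ι hNC hFI hsm hdiv`
  `    hK.injective hK.equivariant hK.range_eq hH3 hH2`
-/

set_option autoImplicit false
set_option linter.style.haveILetI false

noncomputable section

namespace Fermat.Agent.S55.KL.H510

open groupCohomology ExtCitation Fermat.Agent.S55.PT

variable {G : Type} [Group G]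

/-- Finitely many levels have a common lower bound among the levels. -/
theorem exists_level_le_finset_h510 (L : LevelSys G) {ι : Type*} (s : Finset ι)
    (f : ι → Subgroup G) (hf : ∀ i ∈ s, f i ∈ L.levels) :
    ∃ W ∈ L.levels, ∀ i ∈ s, W ≤ f i := by
  classical
  induction s using Finset.induction_on with
  | empty =>
    obtain ⟨U, hU⟩ := L.nonempty
    exact ⟨U, hU, fun i hi => absurd hi (Finset.notMem_empty i)⟩
  | insert a s _ ih =>
    obtain ⟨W, hW, hWs⟩ := ih (fun i hi => hf i (Finset.mem_insert_of_mem hi))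
    obtain ⟨W', hW', hle⟩ := L.directed W hW (f a) (hf a (Finset.mem_insert_self a s))
    refine ⟨W', hW', fun i hi => ?_⟩
    rcases Finset.mem_insert.1 hi with rfl | hi
    · exact fun x hx => (hle hx).2
    · exact fun x hx => hWs i hi (hle hx).1

/-- A level-constant 1-cochain with values in a smooth module has all its values fixed by one
level (levels of finite index). -/
theorem exists_level_fixing_values_h510 {k : Type} [CommRing k] (L : LevelSys G)
    (B : Rep.{0, 0, 0} k G) (hFI : L.FiniteIndex) (hsm : L.IsSmooth B) {y : G → B}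
    (hy : L.IsLC₁ y) : ∃ W ∈ L.levels, ∀ (g s : G), s ∈ W → B.ρ s (y g) = y g := by
  classical
  obtain ⟨U, hU, hyU⟩ := hy
  haveI : U.FiniteIndex := hFI U hU
  haveI : Finite (G ⧸ U) := Subgroup.finite_quotient_of_finiteIndex
  haveI : Fintype (G ⧸ U) := Fintype.ofFinite _
  -- a level fixing `y (rep q)` for every coset `q`
  let rep : G ⧸ U → G := fun q => Quotient.out q
  choose lev hlev hfix using fun q : G ⧸ U => hsm (y (rep q))
  obtain ⟨W, hW, hWle⟩ := exists_level_le_finset_h510 L (Finset.univ : Finset (G ⧸ U)) lev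
    (fun q _ => hlev q)
  refine ⟨W, hW, fun g s hs => ?_⟩
  have hg : y g = y (rep (g : G ⧸ U)) := by
    have h1 : ((rep (g : G ⧸ U) : G) : G ⧸ U) = (g : G ⧸ U) := Quotient.out_eq _
    have h2 : (rep (g : G ⧸ U))⁻¹ * g ∈ U := QuotientGroup.eq.1 h1
    have h3 := hyU (rep (g : G ⧸ U)) _ h2
    rw [mul_inv_cancel_left] at h3
    exact h3
  rw [hg]
  exact hfix _ s (hWle _ (Finset.mem_univ _) hs)

/-- `d₁₂` of a level-constant 1-cochain with values in a smooth module is level-constant. -/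
theorem d₁₂_isLC₂_of_smooth_h510 {k : Type} [CommRing k] (L : LevelSys G)
    (B : Rep.{0, 0, 0} k G) (hNC : L.NormalCofinal) (hFI : L.FiniteIndex) (hsm : L.IsSmooth B)
    {y : G → B} (hy : L.IsLC₁ y) : L.IsLC₂ ((d₁₂ B).hom y) := by
  obtain ⟨U, hU, hfix⟩ := exists_level_fixing_values_h510 L B hFI hsm hy
  obtain ⟨V, hV, hyV⟩ := hy
  obtain ⟨W, hW, hWle⟩ := L.directed U hU V hV
  obtain ⟨N, hNl, hNW, hNn⟩ := hNC W hW
  refine ⟨N, hNl, fun g g' s s' hs hs' => ?_⟩
  have hsU : s ∈ U := (hWle (hNW hs)).1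
  have hs'V : s' ∈ V := (hWle (hNW hs')).2
  have hconj : g'⁻¹ * s * g' ∈ N := by
    have := hNn.conj_mem s hs g'⁻¹
    simpa using this
  have hmem : g'⁻¹ * s * g' * s' ∈ V := (hWle (hNW (N.mul_mem hconj hs'))).2
  have e1 : g * s * (g' * s') = g * g' * (g'⁻¹ * s * g' * s') := by group
  simp only [d₁₂_hom_apply]
  rw [e1, hyV (g * g') _ hmem, hyV g' s' hs'V, hyV g s (hWle (hNW hs)).2, map_mul,
    Module.End.mul_apply, hfix g' s hsU]

/-- **KC-K3** (`KummerH3Spec`, unfolded). -/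
theorem kummerH3_core_h510 (G : Type) [Group G] (L : LevelSys G) (p : ℕ) [Fact p.Prime]
    (M : Rep.{0, 0, 0} (ZMod p) G) (B : Rep.{0, 0, 0} ℤ G) (ι : M →+ B)
    (hNC : L.NormalCofinal) (hFI : L.FiniteIndex) (hsm : L.IsSmooth B)
    (hdiv : ∀ b : B, ∃ c : B, p • c = b)
    (hinj : Function.Injective ι)
    (heq : ∀ (g : G) (m : M), ι (M.ρ g m) = B.ρ g (ι m))
    (hrange : ∀ b : B, p • b = 0 ↔ b ∈ Set.range ι)
    (hH3 : ∀ z : G × G × G → B,
      (∃ U ∈ L.levels, ∀ g₁ g₂ g₃ s₁ s₂ s₃ : G, s₁ ∈ U → s₂ ∈ U → s₃ ∈ U →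
        z (g₁ * s₁, g₂ * s₂, g₃ * s₃) = z (g₁, g₂, g₃)) →
      (∀ g h i j : G,
        B.ρ g (z (h, i, j)) - z (g * h, i, j) + z (g, h * i, j) - z (g, h, i * j)
          + z (g, h, i) = 0) →
      ∃ b : G × G → B, L.IsLC₂ b ∧ (d₂₃ B).hom b = z)
    (hH2 : ∀ a : G × G → B, a ∈ L.Z2 B → ∃ a' : G × G → B, a' ∈ L.Z2 B ∧ a - p • a' ∈ L.B2 B) :
    ∀ z : G × G × G → M,
      (∃ U ∈ L.levels, ∀ g₁ g₂ g₃ s₁ s₂ s₃ : G, s₁ ∈ U → s₂ ∈ U → s₃ ∈ U →
        z (g₁ * s₁, g₂ * s₂, g₃ * s₃) = z (g₁, g₂, g₃)) →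
      (∀ g h i j : G,
        M.ρ g (z (h, i, j)) - z (g * h, i, j) + z (g, h * i, j) - z (g, h, i * j)
          + z (g, h, i) = 0) →
      ∃ b : G × G → M, L.IsLC₂ b ∧ (d₂₃ M).hom b = z := by
  intro z hzLC hzcoc
  -- Step 1: push `z` to `B`
  obtain ⟨b, hbLC, hb⟩ := hH3 (fun x => ι (z x))
    (by
      obtain ⟨U, hU, h⟩ := hzLC
      exact ⟨U, hU, fun g₁ g₂ g₃ s₁ s₂ s₃ h₁ h₂ h₃ => by
        show ι (z _) = ι (z _)
        rw [h g₁ g₂ g₃ s₁ s₂ s₃ h₁ h₂ h₃]⟩)
    (by
      intro g h i j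
      have := congrArg ι (hzcoc g h i j)
      simpa only [map_add, map_sub, map_zero, heq] using this)
  -- Step 2: `p • b` is a level-constant cocycle
  have hpz : ∀ x, p • ι (z x) = 0 := fun x => by
    rw [← map_nsmul, ZModModule.char_nsmul_eq_zero p (z x), map_zero]
  have hpb : p • b ∈ L.Z2 B := by
    refine ⟨?_, hbLC.comp (p • ·)⟩
    show (d₂₃ B).hom (p • b) = 0
    rw [map_nsmul, hb]
    funext x
    exact hpz x
  obtain ⟨a', ha', x, hxLC, hx⟩ := hH2 (p • b) hpb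
  -- Step 3: divide `x` by `p`
  choose root hroot using hdiv
  let y : G → B := fun g => root (x g)
  have hyLC : L.IsLC₁ y := LevelSys.IsLC₁.comp hxLC root
  have hpy : p • y = x := by
    funext g
    exact hroot (x g)
  have hdy : L.IsLC₂ ((d₁₂ B).hom y) := d₁₂_isLC₂_of_smooth_h510 L B hNC hFI hsm hyLC
  -- Step 4: the corrected cochain has values in `B[p]`
  let c : G × G → B := b - a' - (d₁₂ B).hom y
  have hcLC : L.IsLC₂ c :=
    (L.C2 B).sub_mem ((L.C2 B).sub_mem (show b ∈ L.C2 B from hbLC) ha'.2)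
      (show (d₁₂ B).hom y ∈ L.C2 B from hdy)
  have hpc : ∀ u, p • c u = 0 := by
    intro u
    have h1 : p • c = 0 := by
      show p • (b - a' - (d₁₂ B).hom y) = 0
      rw [smul_sub, smul_sub, ← map_nsmul, hpy, hx, sub_self]
    exact congrFun h1 u
  have hdd : (d₂₃ B).hom ((d₁₂ B).hom y) = 0 := by
    have := d₁₂_comp_d₂₃ B
    have h2 := congrArg (fun f => f.hom y) this
    simpa using h2
  have hdc : (d₂₃ B).hom c = fun u => ι (z u) := by
    show (d₂₃ B).hom (b - a' - (d₁₂ B).hom y) = _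
    rw [map_sub, map_sub, hb, hdd, show (d₂₃ B).hom a' = 0 from ha'.1, sub_zero, sub_zero]
  -- Step 5: descend to `M`
  choose m hm using fun u => (hrange (c u)).1 (hpc u)
  refine ⟨m, ?_, ?_⟩
  · obtain ⟨U, hU, h⟩ := hcLC
    refine ⟨U, hU, fun g g' s s' hs hs' => hinj ?_⟩
    rw [hm, hm, h g g' s s' hs hs']
  · funext u
    apply hinj
    have h1 := congrFun hdc u
    rw [← h1]
    obtain ⟨g, h, i⟩ := u
    simp only [d₂₃_hom_apply, map_add, map_sub, heq, hm]

end Fermat.Agent.S55.KL.H510
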