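import Fermat.Agent.S55.PT.Ind

/-!
# S55 / layer KL (helper53), leaf KL-P2 (`Surj2OfH3Spec`): core, independent of the location of
the interface `KL/Spec.lean` (imports only the landed `PT` layer)

`surj2OfH3_core_h510` is the statement of `Surj2OfH3Spec` with `H3Vanish`, `IsLC₃`, `IsCocycle₃`
unfolded.  Adapter (one line, wherever the Spec lives):

  `theorem surj2OfH3 : Surj2OfH3Spec := fun G _ L p _ hNC hH3 =>`
  `  Fermat.Agent.S55.KL.H510.surj2OfH3_core_h510 G L p hNC hH3`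

`H³_lc(G, R) = 0` for all finite `R` ⇒ `H²_lc(G, −)` is right exact.

Lift a cocycle `n` to the cochain `ñ = sec ∘ n` (`sec` a linear section of `φ`); `d ñ` is a
level-constant 3-cocycle with values in `R = ker φ`; write `d ñ = d b` with `b` a level-constant
2-cochain of `R`; then `ñ - b` is a level-constant 2-cocycle of `P` lifting `n`.
-/

set_option autoImplicit false
set_option linter.style.haveILetI false

noncomputable section

namespace Fermat.Agent.S55.KL.H510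

open groupCohomology ExtCitation Fermat.Agent.S55.PT

variable {k : Type} [Field k] {G : Type} [Group G]

/-- `d₂₃` of a cochain which is right-invariant under a normal subgroup `V` acting trivially on
the coefficients is right-invariant under `V` (in all three variables). -/
theorem d₂₃_rightInv_h510 (P : Rep.{0, 0, 0} k G) (V : Subgroup G) [V.Normal]
    (hP : ∀ s ∈ V, ∀ a : P, P.ρ s a = a) (f : G × G → P)
    (hf : ∀ g g' s s' : G, s ∈ V → s' ∈ V → f (g * s, g' * s') = f (g, g'))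
    (g h i s₁ s₂ s₃ : G) (h₁ : s₁ ∈ V) (h₂ : s₂ ∈ V) (h₃ : s₃ ∈ V) :
    (d₂₃ P).hom f (g * s₁, h * s₂, i * s₃) = (d₂₃ P).hom f (g, h, i) := by
  have e1 : f (h * s₂, i * s₃) = f (h, i) := hf h i s₂ s₃ h₂ h₃
  have e2 : f (g * s₁ * (h * s₂), i * s₃) = f (g * h, i) := by
    have hm : h⁻¹ * s₁ * h * s₂ ∈ V := by
      refine V.mul_mem ?_ h₂
      have := ‹V.Normal›.conj_mem s₁ h₁ h⁻¹
      simpa using this
    have : g * s₁ * (h * s₂) = g * h * (h⁻¹ * s₁ * h * s₂) := by group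
    rw [this]
    exact hf (g * h) i _ s₃ hm h₃
  have e3 : f (g * s₁, h * s₂ * (i * s₃)) = f (g, h * i) := by
    have hm : i⁻¹ * s₂ * i * s₃ ∈ V := by
      refine V.mul_mem ?_ h₃
      have := ‹V.Normal›.conj_mem s₂ h₂ i⁻¹
      simpa using this
    have : h * s₂ * (i * s₃) = h * i * (i⁻¹ * s₂ * i * s₃) := by group
    rw [this]
    exact hf g (h * i) s₁ _ h₁ hm
  have e4 : f (g * s₁, h * s₂) = f (g, h) := hf g h s₁ s₂ h₁ h₂
  have e5 : P.ρ (g * s₁) (f (h, i)) = P.ρ g (f (h, i)) := by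
    rw [map_mul]
    show P.ρ g (P.ρ s₁ (f (h, i))) = _
    rw [hP s₁ h₁]
  simp only [d₂₃_hom_apply]
  rw [e1, e2, e3, e4, e5]

/-- `d ∘ d = 0` in degrees 2, 3, inhomogeneous form. -/
theorem d₂₃_isCocycle_h510 (P : Rep.{0, 0, 0} k G) (f : G × G → P) (g h i j : G) :
    P.ρ g ((d₂₃ P).hom f (h, i, j)) - (d₂₃ P).hom f (g * h, i, j)
      + (d₂₃ P).hom f (g, h * i, j) - (d₂₃ P).hom f (g, h, i * j)
      + (d₂₃ P).hom f (g, h, i) = 0 := by
  have e : P.ρ (g * h) (f (i, j)) = P.ρ g (P.ρ h (f (i, j))) := by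
    rw [map_mul]; rfl
  simp only [d₂₃_hom_apply, map_add, map_sub, e, mul_assoc]
  abel

/-- **KL-P2** (`Surj2OfH3Spec`, unfolded): `H³_lc(G, R) = 0` for all finite `R` ⇒ `H²_lc(G, −)` is
right exact. -/
theorem surj2OfH3_core_h510 (G : Type) [Group G] (L : LevelSys G) (p : ℕ) [Fact p.Prime]
    (hNC : L.NormalCofinal)
    (hH3 : ∀ R : Rep.{0, 0, 0} (ZMod p) G, FiniteDimensional (ZMod p) R → L.IsUSmooth R →
      ∀ z : G × G × G → R,
        (∃ U ∈ L.levels, ∀ g₁ g₂ g₃ s₁ s₂ s₃ : G, s₁ ∈ U → s₂ ∈ U → s₃ ∈ U →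
          z (g₁ * s₁, g₂ * s₂, g₃ * s₃) = z (g₁, g₂, g₃)) →
        (∀ g h i j : G,
          R.ρ g (z (h, i, j)) - z (g * h, i, j) + z (g, h * i, j) - z (g, h, i * j)
            + z (g, h, i) = 0) →
        ∃ b : G × G → R, L.IsLC₂ b ∧ (d₂₃ R).hom b = z)
    (P N : Rep.{0, 0, 0} (ZMod p) G) (φ : P →ₗ[ZMod p] N) (hφ : IsEquivariant φ)
    (hfdP : FiniteDimensional (ZMod p) P) (hsmP : L.IsUSmooth P) (_hsmN : L.IsUSmooth N)
    (hsurj : Function.Surjective φ) : Function.Surjective (pushH2 φ hφ L) := by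
  intro y
  haveI := hfdP
  obtain ⟨sec, hsec⟩ := φ.exists_rightInverse_of_surjective (LinearMap.range_eq_top.2 hsurj)
  have hsec' : ∀ x : N, φ (sec x) = x := fun x => LinearMap.congr_fun hsec x
  obtain ⟨n, rfl⟩ := L.H2π_surjective N y
  have hn0 : (d₂₃ N).hom (n : G × G → N) = 0 := n.2.1
  have hnLC : L.IsLC₂ (n : G × G → N) := n.2.2
  -- the lifted cochain
  let ñ : G × G → P := sec ∘ (n : G × G → N)
  have hñLC : L.IsLC₂ ñ := hnLC.comp sec
  have hφñ : φ ∘ ñ = (n : G × G → N) := by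
    funext x
    exact hsec' _
  have hz : ∀ x, (d₂₃ P).hom ñ x ∈ LinearMap.ker φ := by
    intro x
    rw [LinearMap.mem_ker]
    have h1 := congrFun (push_d₂₃ φ hφ ñ) x
    rw [hφñ, hn0] at h1
    exact h1.symm
  -- the kernel representation
  have hfdR : FiniteDimensional (ZMod p) (kerRep φ hφ) :=
    inferInstanceAs (FiniteDimensional (ZMod p) ↥(LinearMap.ker φ))
  obtain ⟨U₁, hU₁, hU₁P⟩ := hsmP
  have hsmR : L.IsUSmooth (kerRep φ hφ) :=
    ⟨U₁, hU₁, fun s hs a => Subtype.ext (hU₁P s hs (a : P))⟩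
  let z : G × G × G → kerRep φ hφ := fun x => ⟨(d₂₃ P).hom ñ x, hz x⟩
  -- a normal level below the level of `ñ` and the level acting trivially on `P`
  obtain ⟨U₂, hU₂, hU₂ñ⟩ := hñLC
  obtain ⟨W, hW, hWle⟩ := L.directed U₁ hU₁ U₂ hU₂
  obtain ⟨V, hV, hVW, hVn⟩ := hNC W hW
  haveI := hVn
  have hzLC : ∃ U ∈ L.levels, ∀ g₁ g₂ g₃ s₁ s₂ s₃ : G, s₁ ∈ U → s₂ ∈ U → s₃ ∈ U →
      z (g₁ * s₁, g₂ * s₂, g₃ * s₃) = z (g₁, g₂, g₃) := by
    refine ⟨V, hV, fun g₁ g₂ g₃ s₁ s₂ s₃ h₁ h₂ h₃ => Subtype.ext ?_⟩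
    exact d₂₃_rightInv_h510 P V (fun s hs a => hU₁P s (hWle (hVW hs)).1 a) ñ
      (fun g g' s s' hs hs' => hU₂ñ g g' s s' (hWle (hVW hs)).2 (hWle (hVW hs')).2)
      g₁ g₂ g₃ s₁ s₂ s₃ h₁ h₂ h₃
  have hzcoc : ∀ g h i j : G,
      (kerRep φ hφ).ρ g (z (h, i, j)) - z (g * h, i, j) + z (g, h * i, j) - z (g, h, i * j)
        + z (g, h, i) = 0 := by
    intro g h i j
    apply Subtype.ext
    exact d₂₃_isCocycle_h510 P ñ g h i j
  obtain ⟨b, hbLC, hb⟩ := hH3 (kerRep φ hφ) hfdR hsmR z hzLC hzcoc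
  -- the corrected lift
  have hdb : (d₂₃ P).hom (kerIncl φ ∘ b) = (d₂₃ P).hom ñ := by
    rw [push_d₂₃ (A := kerRep φ hφ) (B := P) (kerIncl φ) (kerIncl_equivariant φ hφ) b, hb]
    rfl
  have hcLC : L.IsLC₂ (ñ - kerIncl φ ∘ b) :=
    (L.C2 P).sub_mem (show ñ ∈ L.C2 P from ⟨U₂, hU₂, hU₂ñ⟩)
      (show kerIncl φ ∘ b ∈ L.C2 P from hbLC.comp (kerIncl φ))
  have hccoc : ñ - kerIncl φ ∘ b ∈ cocycles₂ P := by
    show (d₂₃ P).hom (ñ - kerIncl φ ∘ b) = 0
    rw [map_sub, hdb, sub_self]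
  refine ⟨L.H2π P ⟨ñ - kerIncl φ ∘ b, hccoc, hcLC⟩, ?_⟩
  rw [pushH2_mk]
  congr 1
  apply Subtype.ext
  funext x
  show φ (ñ x - kerIncl φ (b x)) = (n : G × G → N) x
  rw [map_sub, show φ (kerIncl φ (b x)) = 0 from LinearMap.mem_ker.1 (b x).2, sub_zero]
  exact hsec' _

end Fermat.Agent.S55.KL.H510
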