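import Fermat.Agent.S55.PT.Spec

/-!
# S55 / layer KL (helper53), leaf KL-P4 (`TopLocIndOfSpec`): core, independent of the location of
the interface `KL/Spec.lean` (imports only the landed `PT` layer)

`topLocIndOf_core_h510` is the statement of `TopLocIndOfSpec` verbatim.  Adapter (one line):

  `theorem topLocIndOf : TopLocIndOfSpec := Fermat.Agent.S55.KL.H510.topLocIndOf_core_h510`

A6 (`PT.TopLocIndSpec inv`) from right exactness of `H²` (A4) and the cardinality
`|H²(G_v, Ind_W μ)| = p`, for any family of bijective maps `inv_v`.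
-/

set_option autoImplicit false
set_option linter.style.haveILetI false

noncomputable section

namespace Fermat.Agent.S55.KL.H510

open groupCohomology ExtCitation Fermat.Agent.S55.PT

/-- A normal subgroup `W` acting trivially on `M` acts trivially on `Ind_W M`. -/
theorem indRep_ρ_eq_of_normal_h510 {k : Type} [Field k] {G : Type} [Group G] (W : Subgroup G)
    [W.Normal] (M : Rep.{0, 0, 0} k G) (hW : ∀ s ∈ W, M.ρ s = 1) (s : G) (hs : s ∈ W)
    (a : indRep W M) : (indRep W M).ρ s a = a := by
  have key : (indRep W M).ρ s = LinearMap.id := by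
    apply Finsupp.lhom_ext
    intro x m
    have h1 : s • x = x := by
      induction x using QuotientGroup.induction_on with
      | H g =>
        show ((s * g : G) : G ⧸ W) = (g : G ⧸ W)
        rw [eq_comm, QuotientGroup.eq]
        have : g⁻¹ * (s * g) = g⁻¹ * s * g⁻¹⁻¹ := by simp [mul_assoc]
        rw [this]
        exact ‹W.Normal›.conj_mem s hs g⁻¹
    have h2 : M.ρ s m = m := by rw [hW s hs]; rfl
    rw [LinearMap.id_apply]
    exact (indRep_ρ_single W M s x m).trans (by rw [h1, h2])
  rw [key]; rfl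

/-- **KL-P4** (`TopLocIndOfSpec`, verbatim): A6 from right exactness and the cardinality of
`H²(G_v, Ind_W μ)`, for ANY family of bijective maps `inv_v`. -/
theorem topLocIndOf_core_h510 :
    ∀ (p : ℕ) [Fact p.Prime] (S : Finset Nat.Primes) (inv : InvFamily p S),
      (∀ v : ↥S, Function.Bijective (inv v)) →
      (∀ v : ↥S, (localLevels v.1).FiniteIndex) →
      Surj2LocSpec p S →
      (∀ (v : ↥S) (W : Subgroup (Gl v.1)), W ∈ (localLevels v.1).levels → W.Normal →
        (∀ s ∈ W, (muLoc p v.1).ρ s = 1) →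
        Nat.card ((localLevels v.1).H2 (indRep W (muLoc p v.1))) = p) →
      TopLocIndSpec inv := by
  intro p _ S inv hinv hfi hsurj hcard v W hW hWn hWtriv
  haveI := hWn
  haveI : W.FiniteIndex := hfi v W hW
  haveI : Finite (Gl v.1 ⧸ W) := Subgroup.finite_quotient_of_finiteIndex
  haveI hfdμ : FiniteDimensional (ZMod p) (muLoc p v.1) :=
    inferInstanceAs (FiniteDimensional (ZMod p) (ZMod p))
  have hfd : FiniteDimensional (ZMod p) (indRep W (muLoc p v.1)) :=
    inferInstanceAs (Module.Finite (ZMod p) ((Gl v.1 ⧸ W) →₀ (muLoc p v.1)))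
  have hsm : (localLevels v.1).IsUSmooth (indRep W (muLoc p v.1)) :=
    ⟨W, hW, fun s hs a => indRep_ρ_eq_of_normal_h510 W (muLoc p v.1) hWtriv s hs a⟩
  have hsmμ : (localLevels v.1).IsUSmooth (muLoc p v.1) :=
    ⟨W, hW, fun s hs a => by rw [hWtriv s hs]; rfl⟩
  have h1 : Function.Surjective
      (pushH2 (A := indRep W (muLoc p v.1)) (B := muLoc p v.1) (indAug W (muLoc p v.1))
        (indAug_equivariant W (muLoc p v.1)) (localLevels v.1)) :=
    hsurj v.1 v.2 (indRep W (muLoc p v.1)) (muLoc p v.1) (indAug W (muLoc p v.1))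
      (indAug_equivariant W (muLoc p v.1)) hfd hsm hsmμ (indAug_surjective W (muLoc p v.1))
  have hp : p ≠ 0 := (Fact.out : p.Prime).ne_zero
  have hcμ : Nat.card ((localLevels v.1).H2 (muLoc p v.1)) = p := by
    rw [Nat.card_eq_of_bijective _ (hinv v), Nat.card_zmod]
  have hcI : Nat.card ((localLevels v.1).H2 (indRep W (muLoc p v.1))) = p :=
    hcard v W hW hWn hWtriv
  haveI : Finite ((localLevels v.1).H2 (indRep W (muLoc p v.1))) :=
    Nat.finite_of_card_ne_zero (by rw [hcI]; exact hp)
  have h2 : Function.Bijective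
      (pushH2 (A := indRep W (muLoc p v.1)) (B := muLoc p v.1) (indAug W (muLoc p v.1))
        (indAug_equivariant W (muLoc p v.1)) (localLevels v.1)) :=
    h1.bijective_of_nat_card_le (by rw [hcI, hcμ])
  rw [LinearMap.coe_comp]
  exact (hinv v).comp h2

end Fermat.Agent.S55.KL.H510
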